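import Fermat.Agent.Root.SummaryModularForms
import Fermat.Agent.Root.SummaryFaltingsSerreTwo
import Fermat.Agent.JTorsion.AdicLimit
import Fermat.Agent.RT.Tate.Flat

/-!
# An eigenform of two-power level against a curve good outside two

By the criterion of Faltings, Serre and Livné the `2`-adic representations agree as soon as the
coefficients at `3`, `5` and `7` do, so the coefficients agree at every odd prime.
-/

set_option autoImplicit false
set_option linter.unusedSectionVars false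
set_option linter.style.haveILetI false

noncomputable section

open WeierstrassCurve CongruenceSubgroup IsLocalRing FA.OggTwo FA.RT.Tate FA.Frob Matrix

local notation "Qb" => AlgebraicClosure ℚ
local notation "GQ" => AlgebraicClosure ℚ ≃ₐ[ℚ] AlgebraicClosure ℚ

namespace FA.LevelTwoSeven

theorem isOpen_ker_of_isContRep {A : Type} [CommRing A] [IsLocalRing A]
    {r : GQ →* Matrix (Fin 2) (Fin 2) A} (h : FA.Deform.IsContRep r) (n : ℕ) :
    IsOpen (((GeneralLinearGroup.map (Ideal.Quotient.mk (maximalIdeal A ^ n))).comp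
      r.toHomUnits).ker : Set GQ) := by
  obtain ⟨L, hL, hfix⟩ := h n
  refine Subgroup.isOpen_mono (H₁ := L.fixingSubgroup) (fun σ hσ => MonoidHom.mem_ker.2
    (Units.ext ?_)) (IntermediateField.fixingSubgroup_isOpen L)
  ext i j
  have hij := hfix σ ((IntermediateField.mem_fixingSubgroup_iff L σ).1 hσ) i j
  rw [Matrix.sub_apply, ← Ideal.Quotient.eq_zero_iff_mem, map_sub, sub_eq_zero] at hij
  show Ideal.Quotient.mk _ (r σ i j) = (1 : Matrix (Fin 2) (Fin 2) _) i j
  rw [hij, Matrix.one_apply, Matrix.one_apply, apply_ite (Ideal.Quotient.mk _), map_one, map_zero]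

/-- **The coefficients at `3`, `5`, `7` decide all of those at odd primes.** -/
theorem qCoeff_eq_of_three {N : ℕ} [NeZero N] (hN : ∀ q : ℕ, q.Prime → q ∣ N → q = 2)
    {g : CuspForm (Gamma0 N) 2} (hg : g.IsNormalizedEigenform)
    (E : WeierstrassCurve ℚ) [E.IsElliptic] {p : ℤ × ℤ} (hp : p ∈ models)
    (hM : (twoTorsionModel p.1 p.2).IsIntegralModelOf E)
    (h : ∀ l ∈ ([3, 5, 7] : List ℕ), ModularFormClass.qCoeff g l = (E.LFunction l : ℂ))
    {l : ℕ} (hl : l.Prime) (hl2 : l ≠ 2) :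
    ModularFormClass.qCoeff g l = (E.LFunction l : ℂ) := by
  classical
  haveI := ratCurve_isElliptic_of_Δ (Δ_models_ne_zero hp)
  obtain ⟨O, iC, iD, iV, iA, iF, iZ, h2O, ι, hι, O', iC', iD', iV', iA', iF', iZ', iAlg, iFin,
    hinj, ρ, hopen, hρ⟩ := FA.Summary.eigenform_padic_representation g hg.qCoeff_one
      hg.qCoeff_mul_of_coprime (fun l r hl hlN => hg.qCoeff_prime_pow_of_not_dvd l r hl hlN)
      (fun l r hl hlN => hg.qCoeff_prime_pow_of_dvd l r hl hlN) 2
  have h2O' : ((2 : ℕ) : O') ∈ maximalIdeal O' := by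
    rw [IsLocalRing.mem_maximalIdeal, mem_nonunits_iff, ← map_natCast (algebraMap O O')]
    intro hu
    haveI := (Algebra.IsIntegral.of_finite O O')
    haveI : FaithfulSMul O O' := (faithfulSMul_iff_algebraMap_injective O O').2 hinj
    exact (IsLocalRing.mem_maximalIdeal _).1 h2O (IsLocalHom.map_nonunit _ hu)
  obtain ⟨ι', -⟩ := FA.JTorsion.exists_padicHom (maximalIdeal O') h2O'
  obtain ⟨B⟩ := exists_tateBasis (p := 2) (W := twoTorsionModel p.1 p.2)
  let r₂ := FA.Deform.mapRep ι' B.rep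
  have hodd : ∀ q : ℕ, q.Prime → q ≠ 2 → ¬ q ∣ N * 2 := fun q hq hq2 hd => by
    rcases hq.dvd_mul.1 hd with hd | hd
    · exact hq2 (hN q hq hd)
    · exact hq2 ((Nat.prime_dvd_prime_iff_eq hq Nat.prime_two).1 hd)
  have hB : ∀ (m : ℕ), m.Prime → m ≠ 2 → ∀ A : ValuationSubring Qb, A.LiesOverPrime m →
      ∀ σ : GQ, A.IsFrobeniusAt σ m →
      (r₂ σ).trace = (E.LFunction m : O') ∧ (r₂ σ).det = (m : O') := by
    intro m hm hm2 A hA σ hσ
    have hd := FA.FSTwo.not_dvd_Δ hp hm hm2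
    obtain ⟨t, d⟩ := B.rep_frobenius hm hA hm2 hd hσ
    rw [FA.Root.LFunction_apply_prime E _ hM hm hd]
    refine ⟨?_, ?_⟩
    · rw [← map_intCast ι', ← t, AddMonoidHom.map_trace]
      rfl
    · rw [← map_natCast ι', ← d, RingHom.map_det]
      rfl
  have hR : ∀ (m : ℕ), m.Prime → m ≠ 2 → ∀ A : ValuationSubring Qb, A.LiesOverPrime m →
      ∀ σ : GQ, A.IsFrobeniusAt σ m → ∃ a,
      ((a : Algebra.adjoin ℤ ((fun q => (UpperHalfPlane.qExpansion 1 g).coeff q) ''
          {q : ℕ | q.Prime})) : ℂ) = ModularFormClass.qCoeff g m ∧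
        (ρ σ).val.trace = algebraMap O O' (ι a) ∧ (ρ σ).val.det = (m : O') :=
    fun m hm hm2 A hA σ ⟨hd, hσ⟩ => (hρ m hm (hodd m hm hm2) A hA).2 ⟨σ, hd⟩ hσ
  obtain ⟨A, hA⟩ := FA.Deform.exists_liesOverPrime hl
  obtain ⟨σ, hσ⟩ := FA.Deform.exists_isFrobeniusAt hl hA
  have key := (FA.Summary.faltings_serre_two (maximalIdeal O')
    (by exact_mod_cast h2O') (Ideal.iInf_pow_eq_bot_of_isDomain _
      (maximalIdeal.isMaximal O').ne_top) ρ r₂.toHomUnits hopen
    (isOpen_ker_of_isContRep (B.isContRep ι' h2O'))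
    (fun q hq hq2 C hC τ hτ => by
      obtain ⟨τ', hτ', rfl⟩ := Subgroup.mem_map.1 hτ
      exact MonoidHom.mem_ker.2 ((hρ q hq (hodd q hq hq2) C hC).1 τ' hτ'))
    (fun q hq hq2 C hC τ hτ => MonoidHom.mem_ker.2 (Units.ext (by
      show ι'.mapMatrix (B.rep τ) = 1
      rw [B.rep_inertia_good hq hC hq2 (FA.FSTwo.not_dvd_Δ hp hq hq2) hτ, map_one])))
    (fun m hm => by
      have hm' : m.Prime ∧ m ≠ 2 ∧ ModularFormClass.qCoeff g m = (E.LFunction m : ℂ) := by
        fin_cases hm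
        exacts [⟨by norm_num, by norm_num, h 3 (by simp)⟩,
          ⟨by norm_num, by norm_num, h 5 (by simp)⟩, ⟨by norm_num, by norm_num, h 7 (by simp)⟩]
      obtain ⟨hmp, hm2, he⟩ := hm'
      obtain ⟨C, hC⟩ := FA.Deform.exists_liesOverPrime hmp
      obtain ⟨s, hs⟩ := FA.Deform.exists_isFrobeniusAt hmp hC
      obtain ⟨a, ha, t, d⟩ := hR m hmp hm2 C hC s hs
      obtain ⟨t', d'⟩ := hB m hmp hm2 C hC s hs
      refine ⟨C, hC, s, hs, ?_, d.trans d'.symm⟩
      rw [show a = (E.LFunction m : _) from Subtype.ext (by rw [ha, he]; push_cast; rfl),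
        map_intCast, map_intCast] at t
      exact t.trans t'.symm) σ).1
  obtain ⟨a, ha, t, -⟩ := hR l hl hl2 A hA σ hσ
  rw [t, MonoidHom.coe_toHomUnits, (hB l hl hl2 A hA σ hσ).1, ← map_intCast (algebraMap O O'),
    ← map_intCast ι] at key
  rw [← ha, hι (hinj key)]
  push_cast
  rfl

end FA.LevelTwoSeven

end
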