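import Fermat.Agent.LevelTwoSeven.Form
import Fermat.Agent.Period.Integral
import Fermat.Agent.HeckeH1.EigenSystem
import Fermat.Agent.Root.ModularEnd

/-!
# An eigenform of level `128` with `a₃ = 2`, `a₅ = -2`, `a₇ = 4`

The form from theta series is an eigenvector of `T₃`, `T₅`, `T₇` by Sturm's bound, so the common
eigenspace of the three eigenvalues is nonzero and contains a normalised eigenform.
-/

set_option autoImplicit false

noncomputable section

open CongruenceSubgroup

namespace FA.LevelTwoSeven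

/-- The eigenvalues. -/
def ev (l : ℕ) : ℤ := if l = 3 then 2 else if l = 5 then -2 else 4

theorem index_level : (Gamma0 128).index = 192 := by
  show Nat.card (FA.Dim.Cos 128) = 192
  rw [FA.Dim.card_cos]
  have h := FA.Dim.dedekindPsi_prime_pow Nat.prime_two 6
  norm_num at h
  exact h

theorem tblForm_hecke : ∀ l ∈ [3, 5, 7], ∀ n < 33,
    tblForm.getD (n * l) 0 + (if l ∣ n then (l : ℤ) * tblForm.getD (n / l) 0 else 0) =
      ev l * tblForm.getD n 0 := by
  decide +kernel

/-- **An eigenform of level `128` with the eigenvalues `2`, `-2`, `4` at `3`, `5`, `7`.** -/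
theorem exists_eigenform : ∃ g : CuspForm (Gamma0 128) 2, g.IsNormalizedEigenform ∧
    ∀ l ∈ ([3, 5, 7] : List ℕ), ModularFormClass.qCoeff g l = (ev l : ℂ) := by
  classical
  obtain ⟨f, hf⟩ := exists_cuspForm_table
  have hsmall : ∀ l ∈ ([3, 5, 7] : List ℕ), l.Prime ∧ ¬ l ∣ 128 ∧ l ≤ 7 := by decide
  have hq : ∀ n < 225, FA.Deform.qLin 128 f n = (tblForm.getD n 0 : ℂ) := hf
  have heig : ∀ (l : ℕ) (hl : l ∈ ([3, 5, 7] : List ℕ)),
      CuspForm.heckeTLin 2 (hsmall l hl).1 (hsmall l hl).2.1 f = (ev l : ℂ) • f := fun l hl => by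
    refine sub_eq_zero.1 (FA.Period.cuspForm_eq_zero_of_coeff 128 2 _ fun n hn => ?_)
    have hn' : n < 33 := by
      rw [index_level, Finset.mem_range] at hn
      exact hn
    show FA.Deform.qLin 128 _ n = 0
    have h7 := (hsmall l hl).2.2
    rw [map_sub, map_smul, Pi.sub_apply, Pi.smul_apply, smul_eq_mul, FA.Deform.qLin_heckeT,
      hq _ (by nlinarith), hq n (by omega), sub_eq_zero]
    have h := congrArg (Int.cast : ℤ → ℂ) (tblForm_hecke l hl n hn')
    push_cast at h
    by_cases hd : l ∣ n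
    · rw [if_pos hd, hq _ (lt_of_le_of_lt (Nat.div_le_self _ _) (by omega))]
      rw [if_pos hd] at h
      exact h
    · rw [if_neg hd]
      rw [if_neg hd] at h
      exact h
  let S : Submodule ℂ (CuspForm (Gamma0 128) 2) := ⨅ l : {l : ℕ // l ∈ ([3, 5, 7] : List ℕ)},
    LinearMap.ker (CuspForm.heckeTLin 2 (hsmall l.1 l.2).1 (hsmall l.1 l.2).2.1 -
      (ev l.1 : ℂ) • 1)
  have hS : ∀ v, v ∈ S ↔ ∀ (l : ℕ) (hl : l ∈ ([3, 5, 7] : List ℕ)),
      CuspForm.heckeTLin 2 (hsmall l hl).1 (hsmall l hl).2.1 v = (ev l : ℂ) • v := fun v => by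
    simp [S, Submodule.mem_iInf, sub_eq_zero]
  have hf0 : f ≠ 0 := fun h0 => by
    have h := hq 1 (by norm_num)
    rw [h0, map_zero, show tblForm.getD 1 0 = 1 from rfl] at h
    simp at h
  have hne : S ≠ ⊥ := fun hbot => hf0 (by
    have hfS : f ∈ S := (hS f).2 heig
    rwa [hbot, Submodule.mem_bot] at hfS)
  have hst : ∀ t : CuspForm.heckeAlgebra 128 2 ∅, ∀ v ∈ S,
      (t : Module.End ℂ (CuspForm (Gamma0 128) 2)) v ∈ S := fun t v hv => (hS _).2 fun l hl => by
    have hc := congrArg (fun x : CuspForm.heckeAlgebra 128 2 ∅ =>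
      (x : Module.End ℂ (CuspForm (Gamma0 128) 2)) v) (mul_comm (CuspForm.heckeAlgebra.T (k := 2)
        (hsmall l hl).1 (hsmall l hl).2.1 (Set.notMem_empty _)) t)
    simp only [MulMemClass.coe_mul, Module.End.mul_apply, CuspForm.heckeAlgebra.coe_T] at hc
    rw [hc, (hS v).1 hv l hl, map_smul]
  obtain ⟨g, hg, hgn⟩ := FA.HeckeH1.exists_normalized_mem S hne hst
  refine ⟨g, hgn, fun l hl => ?_⟩
  have h := (FA.JTorsion.heckeT_eigen hgn (hsmall l hl).1 (hsmall l hl).2.1).symm.trans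
    ((hS g).1 hg l hl)
  rw [← FA.Deform.qLin_apply]
  exact smul_left_injective ℂ hgn.ne_zero h

end FA.LevelTwoSeven

end
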