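import Fermat.Agent.LevelTwoSeven.Tables
import Fermat.Agent.Theta.Lattice
import Fermat.Agent.Deform.EigenLift

/-!
# A cusp form of level `128` from theta series of discriminant `-128`

`x² + 32 y²` and `4 x² + 4 x y + 9 y²` are in the same genus, so their Gauss sums agree and the
difference of their theta series, times one theta series of the same determinant, is a cusp form
of weight two on `Γ₀(128)`.  The combination with `[2, 0, 16]`, `-[4, 0, 8]` and `[6, 2, 6]` has
the coefficients `tblForm` below `225`.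
-/

set_option autoImplicit false

noncomputable section

open CongruenceSubgroup Finset
open scoped MatrixGroups

namespace FA.LevelTwoSeven

open FA.Theta

/-- An odd `o` with the odd prime divisors of `n`. -/
theorem exists_multiplier (n : ℕ) [NeZero n] :
    ∃ s : ℤ, IsUnit ((s ^ 2 + 2 : ℤ) : ZMod n) ∧ Odd s := by
  obtain ⟨k, o, ho, hn⟩ := Nat.exists_eq_pow_mul_and_not_dvd (NeZero.ne n) 2 (by norm_num)
  have hodd : Odd o := Nat.odd_iff.2 (by omega)
  refine ⟨o, ?_, by exact_mod_cast hodd⟩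
  rw [show ((o : ℤ) ^ 2 + 2) = ((o ^ 2 + 2 : ℕ) : ℤ) by push_cast; ring, Int.cast_natCast,
    ZMod.isUnit_iff_coprime, hn]
  refine Nat.Coprime.mul_right (Nat.Coprime.pow_right _ ?_) ?_
  · refine (Nat.prime_two.coprime_iff_not_dvd.2 fun h => ho ?_).symm
    exact Nat.prime_two.dvd_of_dvd_pow ((Nat.dvd_add_left dvd_rfl).1 h)
  · show Nat.gcd (o ^ 2 + 2) o = 1
    rw [sq, Nat.gcd_mul_right_add_left]
    exact (Nat.prime_two.coprime_iff_not_dvd.2 ho)

/-- **The two forms have the same Gauss sums.** -/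
theorem gauss_formOne_eq (n : ℕ) [NeZero n] (u : ZMod n) :
    formOne.gauss n u 0 = formTwo.gauss n u 0 := by
  obtain ⟨s, hs, hodd⟩ := exists_multiplier n
  obtain ⟨x, hx⟩ : ∃ x : ℤ, s ^ 2 - s - 2 = 2 * x := by
    obtain ⟨j, rfl⟩ := hodd
    exact ⟨2 * j ^ 2 + j - 1, by ring⟩
  refine BQF.gauss_eq_of_map formOne formTwo
    { toFun := fun v => (v.1 * x + v.2 * (2 * x + 9 * s), v.1 * s - v.2 * (4 * x + 2 * s))
      map_zero' := by simp
      map_add' := fun v w => by ext <;> simp <;> ring }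
    (m := s ^ 2 + 2) (fun v => ?_) hs u
  simp only [AddMonoidHom.coe_mk, ZeroHom.coe_mk, formOne, formTwo, BQF.val, Int.cast_id]
  linear_combination (-(v.1 ^ 2 + 32 * v.2 ^ 2)) * (s ^ 2 + 2 * x + 2 - 2 - 2 + s) * hx

/-- A convolution of lists as a sum. -/
theorem sum_zipWith_reverse (f g : ℕ → ℤ) (n : ℕ) :
    (List.zipWith (· * ·) ((List.range (n + 1)).map f)
      ((List.range (n + 1)).map g).reverse).sum = ∑ i ∈ range (n + 1), f i * g (n - i) := by
  have e : List.zipWith (· * ·) ((List.range (n + 1)).map f)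
      ((List.range (n + 1)).map g).reverse = (List.range (n + 1)).map fun i => f i * g (n - i) := by
    refine List.ext_getElem (by simp) fun i h1 h2 => ?_
    simp
  rw [e]
  rfl

/-- `[1, 0, 32] - [4, 2, 9]`. -/
def tblDiff : List ℤ :=
  (List.range 225).map fun i => (tblOne.getD i 0 : ℤ) - tblTwo.getD i 0

/-- `[2, 0, 16] - [4, 0, 8] + [6, 2, 6]`. -/
def tblSum : List ℤ :=
  (List.range 225).map fun i => (tblA.getD i 0 : ℤ) - tblB.getD i 0 + tblC.getD i 0

theorem tblForm_conv : ∀ n < 225, 2 * tblForm.getD n 0 =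
    (List.zipWith (· * ·) (tblDiff.take (n + 1)) (tblSum.take (n + 1)).reverse).sum := by
  decide +kernel

/-- The table of the form is the convolution. -/
theorem tblForm_eq (n : ℕ) (hn : n < 225) : 2 * tblForm.getD n 0 = ∑ i ∈ range (n + 1),
    ((tblOne.getD i 0 : ℤ) - tblTwo.getD i 0) *
      ((tblA.getD (n - i) 0 : ℤ) - tblB.getD (n - i) 0 + tblC.getD (n - i) 0) := by
  rw [tblForm_conv n hn, tblDiff, tblSum, ← List.map_take, ← List.map_take, List.take_range,
    Nat.min_eq_left (by omega)]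
  exact sum_zipWith_reverse (fun i => (tblOne.getD i 0 : ℤ) - tblTwo.getD i 0)
    (fun i => (tblA.getD i 0 : ℤ) - tblB.getD i 0 + tblC.getD i 0) n

/-- **The cusp form of level `128`.** -/
theorem exists_cuspForm_table : ∃ f : CuspForm (Gamma0 128) 2,
    ∀ n < 225, (UpperHalfPlane.qExpansion 1 f).coeff n = (tblForm.getD n 0 : ℂ) := by
  let Q : Bool → BQF 32 := fun b => if b then formOne else formTwo
  let u : Bool → ℂ := fun b => if b then 1 else -1
  have hG : ∀ (n : ℕ) [NeZero n] (a : ZMod n), ∑ i ∈ univ, u i * (Q i).gauss n a 0 = 0 :=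
    fun n _ a => by simp [Q, u, gauss_formOne_eq]
  have key : ∀ P : BQF 32, ∃ F : CuspForm (Gamma0 128) 2, ∀ n,
      (UpperHalfPlane.qExpansion 1 F).coeff n = ∑ i ∈ range (n + 1),
        ((formOne.rep i : ℂ) - formTwo.rep i) * (P.rep (n - i) : ℂ) := fun P => by
    obtain ⟨F, hF⟩ := exists_cuspForm univ Q P u hG
    refine ⟨F, fun n => ?_⟩
    rw [hF.qExpansion_eq one_pos, PowerSeries.coeff_mul,
      Finset.Nat.sum_antidiagonal_eq_sum_range_succ_mk]
    refine sum_congr rfl fun i _ => ?_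
    simp [Q, u, BQF.series, sub_eq_add_neg]
  obtain ⟨GA, hA⟩ := key formA
  obtain ⟨GB, hB⟩ := key formB
  obtain ⟨GC, hC⟩ := key formC
  refine ⟨(2 : ℂ)⁻¹ • (GA - GB + GC), fun n hn => ?_⟩
  have e : (UpperHalfPlane.qExpansion 1 ((2 : ℂ)⁻¹ •
      (GA - GB + GC) : CuspForm (Gamma0 128) 2)).coeff n = (2 : ℂ)⁻¹ *
      ((UpperHalfPlane.qExpansion 1 GA).coeff n - (UpperHalfPlane.qExpansion 1 GB).coeff n +
        (UpperHalfPlane.qExpansion 1 GC).coeff n) := by
    show FA.Deform.qLin 128 ((2 : ℂ)⁻¹ • (GA - GB + GC)) n = _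
    simp only [map_smul, map_add, map_sub, Pi.smul_apply, Pi.add_apply, Pi.sub_apply, smul_eq_mul]
    rfl
  have hs := congrArg (Int.cast : ℤ → ℂ) (tblForm_eq n hn)
  push_cast at hs
  rw [e, hA, hB, hC, ← sum_sub_distrib, ← sum_add_distrib, mul_comm,
    ← div_eq_mul_inv, div_eq_iff (two_ne_zero' ℂ), mul_comm, hs]
  refine sum_congr rfl fun i hi => ?_
  have hi' : i ≤ n := Nat.lt_succ_iff.1 (mem_range.1 hi)
  rw [rep_formOne (by omega), rep_formTwo (by omega), rep_formA (by omega), rep_formB (by omega),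
    rep_formC (by omega)]
  ring

end FA.LevelTwoSeven

end
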