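import Fermat.Agent.Theta.Modular

/-!
# Representation numbers of five forms of discriminant `-128`

The forms `[1, 0, 32]`, `[4, 2, 9]`, `[2, 0, 16]`, `[4, 0, 8]`, `[6, 2, 6]` and their representation
numbers below `225`, counted in a box.
-/

set_option autoImplicit false

noncomputable section

open CongruenceSubgroup Finset
open scoped MatrixGroups

namespace FA.LevelTwoSeven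

open FA.Theta

/-- `x² + 32 y²`. -/
def formOne : BQF 32 := ⟨1, 0, 32, by norm_num, by norm_num, by norm_num⟩

/-- `4 x² + 4 x y + 9 y²`. -/
def formTwo : BQF 32 := ⟨4, 2, 9, by norm_num, by norm_num, by norm_num⟩

/-- `2 x² + 16 y²`. -/
def formA : BQF 32 := ⟨2, 0, 16, by norm_num, by norm_num, by norm_num⟩

/-- `4 x² + 8 y²`. -/
def formB : BQF 32 := ⟨4, 0, 8, by norm_num, by norm_num, by norm_num⟩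

/-- `6 x² + 4 x y + 6 y²`. -/
def formC : BQF 32 := ⟨6, 2, 6, by norm_num, by norm_num, by norm_num⟩

/-- Representation numbers of `[1, 0, 32]` below `225`. -/
def tblOne : List ℕ :=
  [1, 2, 0, 0, 2, 0, 0, 0, 0, 2, 0, 0, 0, 0, 0, 0, 2, 0, 0, 0, 0, 0, 0, 0, 0, 2, 0, 0, 0, 0, 0, 0,
   2, 4, 0, 0, 6, 0, 0, 0, 0, 4, 0, 0, 0, 0, 0, 0, 4, 2, 0, 0, 0, 0, 0, 0, 0, 4, 0, 0, 0, 0, 0, 0,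
   2, 0, 0, 0, 4, 0, 0, 0, 0, 0, 0, 0, 0, 0, 0, 0, 0, 6, 0, 0, 0, 0, 0, 0, 0, 0, 0, 0, 0, 0, 0, 0,
   4, 0, 0, 0, 2, 0, 0, 0, 0, 0, 0, 0, 0, 0, 0, 0, 0, 4, 0, 0, 0, 0, 0, 0, 0, 2, 0, 0, 0, 0, 0, 0,
   2, 4, 0, 0, 8, 0, 0, 0, 0, 4, 0, 0, 0, 0, 0, 0, 6, 0, 0, 0, 0, 0, 0, 0, 0, 8, 0, 0, 0, 0, 0, 0,
   0, 0, 0, 0, 4, 0, 0, 0, 0, 2, 0, 0, 0, 0, 0, 0, 4, 4, 0, 0, 0, 0, 0, 0, 0, 0, 0, 0, 0, 0, 0, 0,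
   4, 0, 0, 0, 2, 0, 0, 0, 0, 4, 0, 0, 0, 0, 0, 0, 0, 4, 0, 0, 0, 0, 0, 0, 0, 0, 0, 0, 0, 0, 0, 0,
   0]

/-- Representation numbers of `[4, 2, 9]` below `225`. -/
def tblTwo : List ℕ :=
  [1, 0, 0, 0, 2, 0, 0, 0, 0, 4, 0, 0, 0, 0, 0, 0, 2, 4, 0, 0, 0, 0, 0, 0, 0, 0, 0, 0, 0, 0, 0, 0,
   2, 4, 0, 0, 6, 0, 0, 0, 0, 0, 0, 0, 0, 0, 0, 0, 4, 0, 0, 0, 0, 0, 0, 0, 0, 4, 0, 0, 0, 0, 0, 0,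
   2, 0, 0, 0, 4, 0, 0, 0, 0, 4, 0, 0, 0, 0, 0, 0, 0, 4, 0, 0, 0, 0, 0, 0, 0, 4, 0, 0, 0, 0, 0, 0,
   4, 4, 0, 0, 2, 0, 0, 0, 0, 0, 0, 0, 0, 0, 0, 0, 0, 0, 0, 0, 0, 0, 0, 0, 0, 4, 0, 0, 0, 0, 0, 0,
   2, 4, 0, 0, 8, 0, 0, 0, 0, 0, 0, 0, 0, 0, 0, 0, 6, 0, 0, 0, 0, 0, 0, 0, 0, 4, 0, 0, 0, 0, 0, 0,
   0, 0, 0, 0, 4, 0, 0, 0, 0, 0, 0, 0, 0, 0, 0, 0, 4, 4, 0, 0, 0, 0, 0, 0, 0, 0, 0, 0, 0, 0, 0, 0,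
   4, 4, 0, 0, 2, 0, 0, 0, 0, 4, 0, 0, 0, 0, 0, 0, 0, 4, 0, 0, 0, 0, 0, 0, 0, 0, 0, 0, 0, 0, 0, 0,
   0]

/-- Representation numbers of `[2, 0, 16]` below `225`. -/
def tblA : List ℕ :=
  [1, 0, 2, 0, 0, 0, 0, 0, 2, 0, 0, 0, 0, 0, 0, 0, 2, 0, 6, 0, 0, 0, 0, 0, 4, 0, 0, 0, 0, 0, 0, 0,
   2, 0, 4, 0, 0, 0, 0, 0, 0, 0, 0, 0, 0, 0, 0, 0, 4, 0, 2, 0, 0, 0, 0, 0, 0, 0, 0, 0, 0, 0, 0, 0,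
   2, 0, 8, 0, 0, 0, 0, 0, 6, 0, 0, 0, 0, 0, 0, 0, 0, 0, 4, 0, 0, 0, 0, 0, 4, 0, 0, 0, 0, 0, 0, 0,
   4, 0, 2, 0, 0, 0, 0, 0, 0, 0, 0, 0, 0, 0, 0, 0, 0, 0, 8, 0, 0, 0, 0, 0, 0, 0, 0, 0, 0, 0, 0, 0,
   2, 0, 0, 0, 0, 0, 0, 0, 4, 0, 0, 0, 0, 0, 0, 0, 6, 0, 4, 0, 0, 0, 0, 0, 4, 0, 0, 0, 0, 0, 0, 0,
   0, 0, 10, 0, 0, 0, 0, 0, 0, 0, 0, 0, 0, 0, 0, 0, 4, 0, 4, 0, 0, 0, 0, 0, 0, 0, 0, 0, 0, 0, 0,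
   0, 4, 0, 4, 0, 0, 0, 0, 0, 2, 0, 0, 0, 0, 0, 0, 0, 0, 0, 0, 0, 0, 0, 0, 0, 8, 0, 0, 0, 0, 0, 0,
   0, 0]

/-- Representation numbers of `[4, 0, 8]` below `225`. -/
def tblB : List ℕ :=
  [1, 0, 0, 0, 2, 0, 0, 0, 2, 0, 0, 0, 4, 0, 0, 0, 2, 0, 0, 0, 0, 0, 0, 0, 4, 0, 0, 0, 0, 0, 0, 0,
   2, 0, 0, 0, 6, 0, 0, 0, 0, 0, 0, 0, 4, 0, 0, 0, 4, 0, 0, 0, 0, 0, 0, 0, 0, 0, 0, 0, 0, 0, 0, 0,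
   2, 0, 0, 0, 4, 0, 0, 0, 6, 0, 0, 0, 4, 0, 0, 0, 0, 0, 0, 0, 0, 0, 0, 0, 4, 0, 0, 0, 0, 0, 0, 0,
   4, 0, 0, 0, 2, 0, 0, 0, 0, 0, 0, 0, 8, 0, 0, 0, 0, 0, 0, 0, 0, 0, 0, 0, 0, 0, 0, 0, 0, 0, 0, 0,
   2, 0, 0, 0, 8, 0, 0, 0, 4, 0, 0, 0, 0, 0, 0, 0, 6, 0, 0, 0, 0, 0, 0, 0, 4, 0, 0, 0, 0, 0, 0, 0,
   0, 0, 0, 0, 4, 0, 0, 0, 0, 0, 0, 0, 4, 0, 0, 0, 4, 0, 0, 0, 0, 0, 0, 0, 0, 0, 0, 0, 0, 0, 0, 0,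
   4, 0, 0, 0, 2, 0, 0, 0, 2, 0, 0, 0, 8, 0, 0, 0, 0, 0, 0, 0, 0, 0, 0, 0, 8, 0, 0, 0, 0, 0, 0, 0,
   0]

/-- Representation numbers of `[6, 2, 6]` below `225`. -/
def tblC : List ℕ :=
  [1, 0, 0, 0, 0, 0, 4, 0, 2, 0, 0, 0, 0, 0, 0, 0, 2, 0, 0, 0, 0, 0, 4, 0, 4, 0, 0, 0, 0, 0, 0, 0,
   2, 0, 0, 0, 0, 0, 4, 0, 0, 0, 0, 0, 0, 0, 0, 0, 4, 0, 0, 0, 0, 0, 8, 0, 0, 0, 0, 0, 0, 0, 0, 0,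
   2, 0, 0, 0, 0, 0, 0, 0, 6, 0, 0, 0, 0, 0, 0, 0, 0, 0, 0, 0, 0, 0, 4, 0, 4, 0, 0, 0, 0, 0, 0, 0,
   4, 0, 0, 0, 0, 0, 8, 0, 0, 0, 0, 0, 0, 0, 0, 0, 0, 0, 0, 0, 0, 0, 4, 0, 0, 0, 0, 0, 0, 0, 0, 0,
   2, 0, 0, 0, 0, 0, 4, 0, 4, 0, 0, 0, 0, 0, 0, 0, 6, 0, 0, 0, 0, 0, 4, 0, 4, 0, 0, 0, 0, 0, 0, 0,
   0, 0, 0, 0, 0, 0, 4, 0, 0, 0, 0, 0, 0, 0, 0, 0, 4, 0, 0, 0, 0, 0, 0, 0, 0, 0, 0, 0, 0, 0, 0, 0,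
   4, 0, 0, 0, 0, 0, 12, 0, 2, 0, 0, 0, 0, 0, 0, 0, 0, 0, 0, 0, 0, 0, 4, 0, 8, 0, 0, 0, 0, 0, 0,
   0, 0]

/-- The coefficients of the form of level `128` below `225`. -/
def tblForm : List ℤ :=
  [0, 1, 0, 2, 0, -2, 0, 4, 0, 1, 0, -2, 0, -2, 0, -4, 0, -2, 0, 2, 0, 8, 0, -4, 0, -1, 0, -4, 0,
   6, 0, 0, 0, -4, 0, -8, 0, -10, 0, -4, 0, -6, 0, 6, 0, -2, 0, 8, 0, 9, 0, -4, 0, 6, 0, 4, 0, 4,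
   0, 14, 0, -2, 0, 4, 0, 4, 0, 10, 0, -8, 0, -12, 0, 14, 0, -2, 0, -8, 0, 8, 0, -11, 0, -6, 0, 4,
   0, 12, 0, -2, 0, -8, 0, 0, 0, -4, 0, -2, 0, -2, 0, 6, 0, 4, 0, -16, 0, -2, 0, 6, 0, -20, 0, 2,
   0, 8, 0, -2, 0, -8, 0, -7, 0, -12, 0, 12, 0, -16, 0, 12, 0, -6, 0, 8, 0, 8, 0, 10, 0, -10, 0,
   16, 0, 4, 0, -12, 0, 18, 0, -18, 0, -4, 0, -2, 0, 0, 0, -18, 0, 12, 0, -16, 0, 2, 0, 8, 0, 20,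
   0, -9, 0, 2, 0, -18, 0, -4, 0, 28, 0, -6, 0, -2, 0, -4, 0, 20, 0, 4, 0, -16, 0, 16, 0, -2, 0,
   8, 0, 14, 0, 4, 0, 20, 0, 24, 0, 12, 0, -4, 0, -4, 0, -22, 0, -24, 0, -12, 0, 0, 0, 28, 0, 4,
   0, 0, 0]

/-- The representation numbers are counted in a box. -/
theorem rep_eq (Q : BQF 32) (ha : Q.a ≤ 6) (hc : Q.c ≤ 32) {n : ℕ} (hn : n < 225) :
    Q.rep n = ((Icc (-15 : ℤ) 15 ×ˢ Icc (-8 : ℤ) 8).filter fun v =>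
      Q.a * (v.1 * v.1) + 2 * Q.b * (v.1 * v.2) + Q.c * (v.2 * v.2) = (n : ℤ)).card := by
  refine congrArg Finset.card (Finset.ext fun v => ?_)
  simp only [Set.Finite.mem_toFinset, Set.mem_ofPred_eq, mem_filter, mem_product, mem_Icc]
  have hv : Q.val v = Q.a * (v.1 * v.1) + 2 * Q.b * (v.1 * v.2) + Q.c * (v.2 * v.2) := by
    simp only [BQF.val, Int.cast_id]; ring
  rw [hv]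
  refine ⟨fun h => ⟨⟨abs_le.1 ?_, abs_le.1 ?_⟩, h⟩, fun h => h.2⟩
  all_goals
    have hd := Q.det
    have := Q.pos
    have := Q.c_pos
    push_cast at hd
    have hn' : (n : ℤ) ≤ 224 := by omega
    rw [← Int.lt_add_one_iff, abs_lt]
    constructor
  all_goals
    nlinarith [sq_nonneg (Q.b * v.1 + Q.c * v.2), sq_nonneg (Q.a * v.1 + Q.b * v.2)]

theorem rep_formOne {n : ℕ} (hn : n < 225) : formOne.rep n = tblOne.getD n 0 := by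
  rw [rep_eq _ (by decide) (by decide) hn]
  revert n
  decide +kernel

theorem rep_formTwo {n : ℕ} (hn : n < 225) : formTwo.rep n = tblTwo.getD n 0 := by
  rw [rep_eq _ (by decide) (by decide) hn]
  revert n
  decide +kernel

theorem rep_formA {n : ℕ} (hn : n < 225) : formA.rep n = tblA.getD n 0 := by
  rw [rep_eq _ (by decide) (by decide) hn]
  revert n
  decide +kernel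

theorem rep_formB {n : ℕ} (hn : n < 225) : formB.rep n = tblB.getD n 0 := by
  rw [rep_eq _ (by decide) (by decide) hn]
  revert n
  decide +kernel

theorem rep_formC {n : ℕ} (hn : n < 225) : formC.rep n = tblC.getD n 0 := by
  rw [rep_eq _ (by decide) (by decide) hn]
  revert n
  decide +kernel

end FA.LevelTwoSeven

end
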