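import Fermat.Agent.LevelTwoSeven.Eigen
import Fermat.Agent.LevelTwoSeven.Compare
import Fermat.Agent.Twists.Form
import Fermat.Agent.Ribet.SerreTrace
import Fermat.Agent.Root.SummaryTorsionRamification

/-!
# The eight curves with `j = 128` or `10976`

Their traces at `3`, `5`, `7` are those of the eigenform of level `128` times a quadratic character
modulo `8`, so the twist, of level `2 ^ 13`, has their L-function.
-/

set_option autoImplicit false
set_option linter.unusedSectionVars false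
set_option linter.style.haveILetI false

noncomputable section

open WeierstrassCurve CongruenceSubgroup FA.OggTwo FA.Frob

namespace FA.LevelTwoSeven

/-- The models without complex multiplication. -/
def nonCM : List (ℤ × ℤ) :=
  [(2, 2), (-4, -4), (4, 8), (-2, -1), (-4, 8), (2, -1), (-2, 2), (4, -4)]

/-- The twisting characters modulo `8`, with integer values. -/
def chiOf (p : ℤ × ℤ) : MulChar (ZMod 8) ℤ :=
  if p = (2, 2) ∨ p = (-4, -4) then ZMod.χ₈ * ZMod.χ₈
  else if p = (4, 8) ∨ p = (-2, -1) then ZMod.χ₈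
  else if p = (-4, 8) ∨ p = (2, -1) then ZMod.χ₈'
  else ZMod.χ₈ * ZMod.χ₈'

theorem chiOf_sq : ∀ p ∈ nonCM, ∀ u : (ZMod 8)ˣ, chiOf p u * chiOf p u = 1 := by
  decide +kernel

/-- The trace of the reduction of `y² = x³ + a x² + b x` modulo `l`. -/
def trace (p : ℤ × ℤ) (l : ℕ) [NeZero l] : ℤ :=
  l - ((FA.Ribet.nsPts (n := l) 0 (p.1 : ZMod l) 0 (p.2 : ZMod l) 0).card : ℤ)

theorem apOfModel_eq_trace (p : ℤ × ℤ) (l : ℕ) [Fact l.Prime] :
    (twoTorsionModel p.1 p.2).apOfModel l = trace p l :=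
  FA.Ribet.apOfModel_eq_nsPts (by
    ext <;> simp [WeierstrassCurve.reductionMod, twoTorsionModel])

theorem trace_models : ∀ p ∈ nonCM,
    chiOf p (3 : ZMod 8) * ev 3 = trace p 3 ∧ chiOf p (5 : ZMod 8) * ev 5 = trace p 5 ∧
      chiOf p (7 : ZMod 8) * ev 7 = trace p 7 := by
  decide +kernel

theorem models_split : ∀ p ∈ models, p ∈ nonCM ∨
    (16 * (p.1 ^ 2 - 3 * p.2)) ^ 3 = 1728 * (16 * p.2 ^ 2 * (p.1 ^ 2 - 4 * p.2)) ∨
    (16 * (p.1 ^ 2 - 3 * p.2)) ^ 3 = 8000 * (16 * p.2 ^ 2 * (p.1 ^ 2 - 4 * p.2)) ∨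
    (16 * (p.1 ^ 2 - 3 * p.2)) ^ 3 = 287496 * (16 * p.2 ^ 2 * (p.1 ^ 2 - 4 * p.2)) := by
  decide +kernel

theorem nonCM_mem : ∀ p ∈ nonCM, p ∈ models := by decide

/-- **An eigenform of level `2 ^ 13` with the L-function of the curve.** -/
theorem exists_form_LFunction (E : WeierstrassCurve ℚ) [E.IsElliptic] {p : ℤ × ℤ} (hp : p ∈ nonCM)
    (hM : (twoTorsionModel p.1 p.2).IsIntegralModelOf E)
    (h2 : ∀ k : ℕ, 0 < k → E.LFunction (2 ^ k) = 0) :
    ∃ f : CuspForm (Gamma0 (128 * 8 ^ 2)) 2, f.IsNormalizedEigenform ∧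
      ∀ n : ℕ, ModularFormClass.qCoeff f n = (E.LFunction n : ℂ) := by
  classical
  have hmod := nonCM_mem p hp
  haveI := ratCurve_isElliptic_of_Δ (Δ_models_ne_zero hmod)
  obtain ⟨g₀, hg₀, hev⟩ := exists_eigenform
  let ψ : DirichletCharacter ℂ 8 := (chiOf p).ringHomComp (Int.castRingHom ℂ)
  have hψ : ∀ u : (ZMod 8)ˣ, ψ u * ψ u = 1 := fun u => by
    simp only [ψ, MulChar.ringHomComp_apply, ← map_mul, chiOf_sq p hp u, map_one]
  obtain ⟨g, hg, hgn⟩ := FA.Twists.exists_twist_eigenform hg₀ hψ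
  have hlev : ∀ q : ℕ, q.Prime → q ∣ 128 * 8 ^ 2 → q = 2 := fun q hq hd =>
    (Nat.prime_dvd_prime_iff_eq hq Nat.prime_two).1
      (hq.dvd_of_dvd_pow (n := 13) (by rwa [show 2 ^ 13 = 128 * 8 ^ 2 by norm_num]))
  have hthree : ∀ l ∈ ([3, 5, 7] : List ℕ),
      ModularFormClass.qCoeff g l = (E.LFunction l : ℂ) := by
    intro l hl
    obtain ⟨e3, e5, e7⟩ := trace_models p hp
    simp only [List.mem_cons, List.not_mem_nil, or_false] at hl
    rcases hl with rfl | rfl | rfl
    · have : Fact (Nat.Prime 3) := ⟨by norm_num⟩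
      rw [hgn, hev 3 (by simp), FA.Root.LFunction_apply_prime E _ hM (by norm_num)
        (FA.FSTwo.not_dvd_Δ hmod (by norm_num) (by norm_num)), apOfModel_eq_trace, ← e3]
      simp [ψ]
    · have : Fact (Nat.Prime 5) := ⟨by norm_num⟩
      rw [hgn, hev 5 (by simp), FA.Root.LFunction_apply_prime E _ hM (by norm_num)
        (FA.FSTwo.not_dvd_Δ hmod (by norm_num) (by norm_num)), apOfModel_eq_trace, ← e5]
      simp [ψ]
    · have : Fact (Nat.Prime 7) := ⟨by norm_num⟩
      rw [hgn, hev 7 (by simp), FA.Root.LFunction_apply_prime E _ hM (by norm_num)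
        (FA.FSTwo.not_dvd_Δ hmod (by norm_num) (by norm_num)), apOfModel_eq_trace, ← e7]
      simp [ψ]
  refine ⟨g, hg, fun n => ?_⟩
  have hL := FA.Root.isMultiplicative_LFunction E
  induction n using Nat.recOnPosPrimePosCoprime with
  | zero =>
    rw [ArithmeticFunction.map_zero, Int.cast_zero]
    exact FA.Deform.qLin_zero_apply g
  | one => rw [hg.qCoeff_one, hL.map_one, Int.cast_one]
  | coprime a b _ _ hab iha ihb =>
    rw [hg.qCoeff_mul_of_coprime a b hab, hL.map_mul_of_coprime hab, iha, ihb, Int.cast_mul]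
  | prime_pow q k hq hk =>
    rcases eq_or_ne q 2 with rfl | hq2
    · rw [h2 k hk, Int.cast_zero, hgn]
      have : ψ ((2 ^ k : ℕ) : ZMod 8) = 0 := ψ.map_nonunit fun h => by
        rw [ZMod.isUnit_iff_coprime, Nat.coprime_pow_left_iff hk] at h
        norm_num at h
      rw [this, zero_mul]
    · have hd : ¬ (q : ℤ) ∣ (twoTorsionModel p.1 p.2).Δ := FA.FSTwo.not_dvd_Δ hmod hq hq2
      have hqN : ¬ q ∣ 128 * 8 ^ 2 := fun h => hq2 (hlev q hq h)
      clear hk
      induction k using Nat.twoStepInduction with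
      | zero => rw [pow_zero, hg.qCoeff_one, hL.map_one, Int.cast_one]
      | one =>
        rw [pow_one]
        exact qCoeff_eq_of_three hlev hg E hmod hM hthree hq hq2
      | more r ih1 ih2 =>
        rw [hg.qCoeff_prime_pow_of_not_dvd q r hq hqN, ih1, ih2,
          qCoeff_eq_of_three hlev hg E hmod hM hthree hq hq2,
          FA.Root.LFunction_apply_prime_pow_good E _ hM hq hd r,
          FA.Root.LFunction_apply_prime E _ hM hq hd]
        push_cast
        ring

end FA.LevelTwoSeven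

end
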